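import Mathlib

/-!
# S52, (Mσ) core: substitution in rational functions and multiplicativity of the height

For a field `F` and a non-constant rational function `q : RatFunc F` we define the substitution
homomorphism `substHom q hq : RatFunc F →ₐ[F] RatFunc F` (`X ↦ q`) and prove that the height
`ht r = max (natDegree num) (natDegree denom)` is multiplicative under substitution:

* `ht_substHom : ht (substHom q hq p) = ht p * ht q`.

The proof uses Mathlib's `RatFunc.finrank_eq_max_natDegree` (the degree lemma behind Lüroth's
theorem) and the tower law for relative ranks.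
-/

set_option autoImplicit false

namespace Fermat.Agent.S52.H41

open Polynomial IntermediateField

variable {F : Type*} [Field F]

/-- The height of a rational function: the maximum of the degrees of numerator and denominator. -/
noncomputable def ht (r : RatFunc F) : ℕ := max r.num.natDegree r.denom.natDegree

theorem ht_eq_finrank (r : RatFunc F) : ht r = Module.finrank F⟮r⟯ (RatFunc F) :=
  (RatFunc.finrank_eq_max_natDegree r).symm

theorem ht_eq_relfinrank (r : RatFunc F) :
    ht r = IntermediateField.relfinrank F⟮r⟯ (⊤ : IntermediateField F (RatFunc F)) := by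
  rw [ht_eq_finrank, IntermediateField.relfinrank_top_right]

theorem aeval_injective_of_ne_C (q : RatFunc F) (hq : ¬ ∃ c, q = RatFunc.C c) :
    Function.Injective (Polynomial.aeval (R := F) q) :=
  transcendental_iff_injective.mp (RatFunc.transcendental_of_ne_C q hq)

/-- Substitution `X ↦ q` in rational functions, for a non-constant `q`. -/
noncomputable def substHom (q : RatFunc F) (hq : ¬ ∃ c, q = RatFunc.C c) :
    RatFunc F →ₐ[F] RatFunc F :=
  RatFunc.liftAlgHom (Polynomial.aeval q)
    (nonZeroDivisors_le_comap_nonZeroDivisors_of_injective _ (aeval_injective_of_ne_C q hq))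

theorem substHom_injective (q : RatFunc F) (hq : ¬ ∃ c, q = RatFunc.C c) :
    Function.Injective (substHom q hq) :=
  RatFunc.liftAlgHom_injective _ (aeval_injective_of_ne_C q hq)

theorem substHom_algebraMap (q : RatFunc F) (hq : ¬ ∃ c, q = RatFunc.C c) (p : F[X]) :
    substHom q hq (algebraMap F[X] (RatFunc F) p) = Polynomial.aeval q p := by
  have h := RatFunc.liftAlgHom_apply_div (φ := Polynomial.aeval q)
    (hφ := nonZeroDivisors_le_comap_nonZeroDivisors_of_injective _
      (aeval_injective_of_ne_C q hq)) p 1
  simpa [substHom] using h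

@[simp]
theorem substHom_X (q : RatFunc F) (hq : ¬ ∃ c, q = RatFunc.C c) :
    substHom q hq RatFunc.X = q := by
  rw [← RatFunc.algebraMap_X, substHom_algebraMap, Polynomial.aeval_X]

theorem substHom_C (q : RatFunc F) (hq : ¬ ∃ c, q = RatFunc.C c) (c : F) :
    substHom q hq (RatFunc.C c) = RatFunc.C c := by
  rw [← RatFunc.algebraMap_eq_C, AlgHom.commutes]

/-- The value of `substHom` on a rational function in terms of numerator and denominator. -/
theorem substHom_apply (q : RatFunc F) (hq : ¬ ∃ c, q = RatFunc.C c) (p : RatFunc F) :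
    substHom q hq p = Polynomial.aeval q p.num / Polynomial.aeval q p.denom := by
  conv_lhs => rw [← RatFunc.num_div_denom p]
  rw [map_div₀, substHom_algebraMap, substHom_algebraMap]

theorem map_top_substHom (q : RatFunc F) (hq : ¬ ∃ c, q = RatFunc.C c) :
    (⊤ : IntermediateField F (RatFunc F)).map (substHom q hq) = F⟮q⟯ := by
  rw [← RatFunc.adjoin_X, IntermediateField.adjoin_map, Set.image_singleton, substHom_X]

theorem map_adjoin_substHom (q : RatFunc F) (hq : ¬ ∃ c, q = RatFunc.C c) (p : RatFunc F) :
    (F⟮p⟯).map (substHom q hq) = F⟮substHom q hq p⟯ := by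
  rw [IntermediateField.adjoin_map, Set.image_singleton]

/-- **Multiplicativity of the height under substitution.** -/
theorem ht_substHom (q : RatFunc F) (hq : ¬ ∃ c, q = RatFunc.C c) (p : RatFunc F) :
    ht (substHom q hq p) = ht p * ht q := by
  have h1 : F⟮substHom q hq p⟯ ≤ F⟮q⟯ := by
    rw [← map_adjoin_substHom, ← map_top_substHom q hq]
    exact IntermediateField.map_mono _ le_top
  have h2 : F⟮q⟯ ≤ (⊤ : IntermediateField F (RatFunc F)) := le_top
  have h3 := IntermediateField.relfinrank_mul_relfinrank h1 h2
  have h4 : IntermediateField.relfinrank F⟮substHom q hq p⟯ F⟮q⟯ =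
      IntermediateField.relfinrank F⟮p⟯ (⊤ : IntermediateField F (RatFunc F)) := by
    rw [← map_adjoin_substHom, ← map_top_substHom q hq, IntermediateField.relfinrank_map_map]
  rw [ht_eq_relfinrank, ht_eq_relfinrank p, ht_eq_relfinrank q, ← h3, h4]

/-- A non-constant rational function has positive height. -/
theorem ht_pos_of_ne_C (q : RatFunc F) (hq : ¬ ∃ c, q = RatFunc.C c) : 0 < ht q := by
  rw [ht, Nat.pos_iff_ne_zero, Ne, Nat.max_eq_zero_iff, ← RatFunc.eq_C_iff]
  exact hq

theorem ht_C (c : F) : ht (RatFunc.C c : RatFunc F) = 0 := by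
  simp [ht]

theorem ht_X : ht (RatFunc.X : RatFunc F) = 1 := by
  simp [ht]

end Fermat.Agent.S52.H41
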